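import Fermat.Agent.WeightOneWiring.Depletion

/-!
# Quadratic twists of weight one forms

Twisting a weight one form with nebentypus `χ₋₃` by a quadratic character `χ` modulo `c`:
`f ↦ ∑ j, ŵ j • f ∣ (c j; 0 c)`, with `ŵ` the finite Fourier transform of `χ`, has the coefficients
`χ n * a n` and level `L c²`.  As `χ` is quadratic, `ŵ (d² j) = ŵ j`, so the nebentypus is kept.
Main result: `exists_twistedForm`.
-/

set_option autoImplicit false

noncomputable section

open CongruenceSubgroup UpperHalfPlane OnePoint Matrix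
open scoped MatrixGroups ModularForm Manifold

namespace FLTAgent.LanglandsTunnell.General

open FLTAgent.MFIntegral FLTAgent.Newforms FLTAgent.WeightOneWiring

/-- The finite Fourier transform of a character. -/
def twistWeight {c : ℕ} [NeZero c] (χ : DirichletCharacter ℂ c) (j : ZMod c) : ℂ :=
  ∑ m : ZMod c, χ m * ZMod.stdAddChar (-(m * j))

/-- `f` twisted by a character, as a combination of translates. -/
def twistForm {c : ℕ} [NeZero c] (χ : DirichletCharacter ℂ c) (f : ℍ → ℂ) : ℍ → ℂ :=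
  ∑ j : ZMod c, twistWeight χ j • (f ∣[(1 : ℤ)] intGL (shiftMat c j.val))

/-- The transform of a quadratic character is invariant under squares of units. -/
theorem twistWeight_mul_sq {c : ℕ} [NeZero c] {χ : DirichletCharacter ℂ c} (hχ : χ * χ = 1)
    {d : ZMod c} (hd : IsUnit d) (j : ZMod c) : twistWeight χ (j * d * d) = twistWeight χ j := by
  have h1 : χ d * χ d = 1 := by
    have h := congrArg (fun ψ : DirichletCharacter ℂ c => ψ d) hχ
    simpa [MulChar.mul_apply, MulChar.one_apply hd] using h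
  rw [twistWeight, twistWeight]
  refine Fintype.sum_equiv (hd.mul hd).unit.mulRight _ _ fun m => ?_
  rw [Units.mulRight_apply, IsUnit.unit_spec, map_mul, map_mul, h1, mul_one]
  congr 2
  ring

/-- The transform inverts. -/
theorem sum_twistWeight {c : ℕ} [NeZero c] (χ : DirichletCharacter ℂ c) (n : ZMod c) :
    ∑ j : ZMod c, twistWeight χ j * ZMod.stdAddChar (n * j) = c * χ n := by
  simp only [twistWeight, Finset.sum_mul, mul_assoc, ← AddChar.map_add_eq_mul]
  rw [Finset.sum_comm]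
  have h : ∀ m : ZMod c, ∑ j : ZMod c, χ m * ZMod.stdAddChar (-(m * j) + n * j) =
      if n = m then (c : ℂ) * χ m else 0 := fun m => by
    rw [← Finset.mul_sum, Finset.sum_congr rfl fun j _ =>
      congrArg ZMod.stdAddChar (show -(m * j) + n * j = j * (n - m) by ring),
      AddChar.sum_mulShift _ (ZMod.isPrimitive_stdAddChar c), ZMod.card]
    simp only [sub_eq_zero]
    split_ifs <;> simp [mul_comm]
  rw [Finset.sum_congr rfl fun m _ => h m, Finset.sum_ite_eq]
  simp

theorem twistForm_slash {L c : ℕ} [NeZero c] {χ : DirichletCharacter ℂ c} (hχ : χ * χ = 1)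
    {f : ℍ → ℂ} (hf : ChiForm L f) {γ : SL(2, ℤ)} (hγ : γ ∈ Gamma0 (L * c ^ 2)) :
    twistForm χ f ∣[(1 : ℤ)] γ = (chiInt (γ 1 1) : ℂ) • twistForm χ f :=
  sum_shift_slash hf (dvd_mul_right L (c ^ 2)) (dvd_mul_left (c ^ 2) L) (twistWeight χ)
    (fun _ hd j => twistWeight_mul_sq hχ hd j) hγ

theorem chiForm_twistForm {L c : ℕ} [NeZero c] [NeZero L] {χ : DirichletCharacter ℂ c}
    (hχ : χ * χ = 1) {f : ℍ → ℂ} (hf : ChiForm L f) : ChiForm (L * c ^ 2) (twistForm χ f) := by
  have hneb : ∀ γ : SL(2, ℤ), γ ∈ Gamma0 (L * c ^ 2) →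
      twistForm χ f ∣[(1 : ℤ)] γ = (chiInt (γ 1 1) : ℂ) • twistForm χ f :=
    fun γ hγ => twistForm_slash hχ hf hγ
  have hzero : ∀ γ : SL(2, ℤ), IsZeroAtImInfty (twistForm χ f ∣[(1 : ℤ)] γ) := by
    intro γ
    rw [twistForm, SlashAction.sum_slash]
    refine (Filter.zeroAtFilterSubmodule ℂ UpperHalfPlane.atImInfty).sum_mem fun j _ => ?_
    rw [ModularForm.SL_smul_slash]
    refine Submodule.smul_mem _ _ ?_
    exact isZeroAtImInfty_shift_slash hf _ γ
  refine ⟨hf.three_dvd.trans (dvd_mul_right _ _),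
    ⟨⟨fun γ hγ => ?_, ?_, fun γ => (hzero γ).boundedAtFilter⟩, hzero⟩, hneb⟩
  · rw [hneb γ (Gamma1_in_Gamma0 _ hγ),
      chiInt_eq_one_of_mem_gamma1 (hf.three_dvd.trans (dvd_mul_right _ _)) hγ, Int.cast_one,
      one_smul]
  · exact MDifferentiable.sum fun j _ => (hf.isCF.1.holo.slash 1 _).const_smul _

theorem qCoeff_twistForm {L c : ℕ} [NeZero c] [NeZero L] {χ : DirichletCharacter ℂ c}
    (hχ : χ * χ = 1) {f : ℍ → ℂ} (hf : ChiForm L f) (n : ℕ) :
    ModularFormClass.qCoeff (twistForm χ f) n = χ n * ModularFormClass.qCoeff f n := by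
  have : NeZero (L * c ^ 2) := ⟨mul_ne_zero (NeZero.ne L) (pow_ne_zero _ (NeZero.ne c))⟩
  have hg := chiForm_twistForm hχ hf
  have hcC : (c : ℂ) ≠ 0 := Nat.cast_ne_zero.mpr (NeZero.ne c)
  symm
  refine ModularFormClass.qExpansion_coeff_unique (f := hg.isCF.toCF)
    (c := fun n => χ n * ModularFormClass.qCoeff f n)
    (Γ := (Gamma1 (L * c ^ 2) : Subgroup (GL (Fin 2) ℝ))) (k := (1 : ℤ)) one_pos (by simp)
    (fun τ => ?_) n
  rw [IsCF.coe_toCF]
  set E : ℂ → ℕ → ℂ := fun z n => Complex.exp (2 * Real.pi * Complex.I * n * z) with hE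
  have hshift : ∀ j : ZMod c, HasSum
      (fun n : ℕ => twistWeight χ j * ((c : ℂ)⁻¹ *
        (ModularFormClass.qCoeff f n * (E τ n * ZMod.stdAddChar ((n : ZMod c) * j)))))
      ((twistWeight χ j • (f ∣[(1 : ℤ)] intGL (shiftMat c j.val))) τ) := by
    intro j
    have hpos := det_shiftMat_pos (NeZero.pos c) j.val
    set A := intGL (shiftMat c j.val) with hA
    have hAv : (A : Matrix (Fin 2) (Fin 2) ℝ) = (shiftMat c j.val).map (Int.castRingHom ℝ) :=
      val_intGL hpos.ne'
    have hden : denom A τ = c := by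
      simp [denom, hAv]
      simp [shiftMat]
    have hτ : ((A • τ : ℍ) : ℂ) = (τ : ℂ) + (j.val : ℂ) / c := by
      rw [coe_smul_of_det_pos (by rw [hA, det_intGL hpos.ne']; exact_mod_cast hpos), hden, num]
      simp [hAv, shiftMat, -ZMod.natCast_val]
      field_simp
    have hval : (f ∣[(1 : ℤ)] A) τ = (c : ℂ)⁻¹ * f (A • τ) := by
      rw [ModularForm.slash_apply, hA, σ_intGL hpos, ← hA, hden]
      simp [mul_comm]
    rw [Pi.smul_apply, smul_eq_mul, hval]
    refine (((hasSum_chiForm hf (A • τ)).mul_left _).mul_left _).congr_fun fun n => ?_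
    have hchar : ZMod.stdAddChar ((n : ZMod c) * j) =
        Complex.exp (2 * Real.pi * Complex.I * ((n * j.val : ℕ) : ℤ) / c) := by
      rw [← ZMod.stdAddChar_coe]
      congr 1
      push_cast
      rw [ZMod.natCast_zmod_val]
    rw [hτ, hchar, hE]
    simp only
    rw [← Complex.exp_add]
    congr 4
    push_cast
    ring
  have hall := hasSum_sum (s := Finset.univ) fun j _ => hshift j
  simp only [twistForm, Finset.sum_apply]
  refine hall.congr_fun fun n => ?_
  have hsum : ∀ j : ZMod c, twistWeight χ j * ((c : ℂ)⁻¹ *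
      (ModularFormClass.qCoeff f n * (E τ n * ZMod.stdAddChar ((n : ZMod c) * j)))) =
      (c : ℂ)⁻¹ * (ModularFormClass.qCoeff f n * E τ n) *
        (twistWeight χ j * ZMod.stdAddChar ((n : ZMod c) * j)) := fun j => by ring
  rw [Finset.sum_congr rfl fun j _ => hsum j, ← Finset.mul_sum, sum_twistWeight, smul_eq_mul,
    Function.Periodic.qParam, ← Complex.exp_nat_mul]
  simp only [hE]
  field_simp
  congr 2
  push_cast
  ring

/-- The twist of a form by a quadratic character. -/
theorem exists_twistedForm {L c : ℕ} (hL : L ≠ 0) [NeZero c] (χ : DirichletCharacter ℂ c)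
    (hχ : χ * χ = 1) {f : ℍ → ℂ} (hf : ChiForm L f) :
    ∃ (L' : ℕ) (g : ℍ → ℂ), L' ≠ 0 ∧ L ∣ L' ∧ c ∣ L' ∧
      (∀ q : ℕ, q.Prime → (q ∣ L' ↔ q ∣ L ∨ q ∣ c)) ∧ ChiForm L' g ∧
      ∀ n : ℕ, ModularFormClass.qCoeff g n = χ n * ModularFormClass.qCoeff f n := by
  have : NeZero L := ⟨hL⟩
  exact ⟨L * c ^ 2, twistForm χ f, mul_ne_zero hL (pow_ne_zero _ (NeZero.ne c)), dvd_mul_right _ _,
    (dvd_pow_self c two_ne_zero).trans (dvd_mul_left _ _),
    fun q hq => hq.dvd_mul.trans (or_congr_right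
      ⟨hq.dvd_of_dvd_pow, fun h => h.trans (dvd_pow_self c two_ne_zero)⟩),
    chiForm_twistForm hχ hf, qCoeff_twistForm hχ hf⟩

end FLTAgent.LanglandsTunnell.General

end
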