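import Fermat.Agent.LanglandsTunnell.Datum
import Fermat.Agent.LevelLowering.Tame
import Fermat.Agent.LocalThree.Tame
import Mathlib.GroupTheory.PGroup
import Mathlib.LinearAlgebra.Matrix.GeneralLinearGroup.Card
import Fermat.Agent.LanglandsTunnell.Matrices

/-!
# The image of inertia at a finite level

The image of inertia at `p` is a `p`-group extended by a cyclic group. So it is cyclic when `p`
does not divide the order of the group, and mod `3` with cyclotomic determinant its shape at `3` is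
either a line or supersingular.
-/

set_option autoImplicit false

noncomputable section

namespace FLTAgent.LanglandsTunnell.General

open FLTAgent.LanglandsTunnell Matrix

section Tame

variable {G : Type} [Group G] {f : GQ →* G} {p : ℕ} {A : ValuationSubring QB}

/-- The image of inertia at `p` has a normal `p`-subgroup with cyclic quotient. -/
theorem exists_wild (hf : GaloisFactorsThroughFiniteLevel f) (hp : p.Prime)
    (hA : A.LiesOverPrime p) :
    ∃ P ≤ (A.inertiaSubgroupIn ℚ).map f, IsPGroup p P ∧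
      (∀ h ∈ (A.inertiaSubgroupIn ℚ).map f, ∀ x ∈ P, h * x * h⁻¹ ∈ P) ∧
      ∃ g ∈ (A.inertiaSubgroupIn ℚ).map f, ∀ h ∈ (A.inertiaSubgroupIn ℚ).map f,
        ∃ n : ℕ, ∃ x ∈ P, h = g ^ n * x := by
  obtain ⟨L₀, hL₀, hfix⟩ := hf
  have := hL₀
  have : IsGalois ℚ QB := by
    have : IsAlgClosure ℚ QB := ⟨inferInstance, AlgebraicClosure.isAlgebraic ℚ⟩
    exact IsAlgClosure.isGalois ℚ QB
  let L := IntermediateField.normalClosure ℚ L₀ QB
  have : FiniteDimensional ℚ L := normalClosure.is_finiteDimensional ℚ L₀ QB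
  have : IsGalois ℚ L := IsGalois.normalClosure ℚ L₀ QB
  obtain ⟨k, _, _, _, φ, hker, -⟩ := MazurStep.exists_tame_character hp hA L
  let ψ : A.inertiaSubgroupIn ℚ →* G := f.comp (A.inertiaSubgroupIn ℚ).subtype
  refine ⟨φ.ker.map ψ, ?_, ?_, ?_, ?_⟩
  · rintro _ ⟨σ, -, rfl⟩
    exact ⟨σ, σ.2, rfl⟩
  · rintro ⟨_, σ, hσ, rfl⟩
    obtain ⟨v, hv⟩ := hker σ hσ
    refine ⟨v, Subtype.ext ?_⟩
    show f σ ^ p ^ v = 1
    rw [← map_pow]
    exact hfix _ fun x hx => hv x (IntermediateField.le_normalClosure L₀ hx)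
  · rintro _ ⟨τ, hτ, rfl⟩ _ ⟨σ, hσ, rfl⟩
    let τ' : A.inertiaSubgroupIn ℚ := ⟨τ, hτ⟩
    refine ⟨τ' * σ * τ'⁻¹, ?_, ?_⟩
    · have hσ' : φ σ = 1 := hσ
      show φ (τ' * σ * τ'⁻¹) = 1
      rw [map_mul, map_mul, hσ', mul_one, map_inv, mul_inv_cancel]
    · rw [map_mul, map_mul, map_inv]
      rfl
  · have : IsCyclic φ.range := isCyclic_subgroup_units _
    obtain ⟨⟨_, τ, rfl⟩, hτ⟩ := IsCyclic.exists_monoid_generator (α := φ.range)
    refine ⟨f τ, ⟨τ, τ.2, rfl⟩, ?_⟩
    rintro _ ⟨σ, hσ, rfl⟩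
    obtain ⟨n, hn⟩ := Submonoid.mem_powers_iff _ _ |>.mp (hτ ⟨φ ⟨σ, hσ⟩, ⟨σ, hσ⟩, rfl⟩)
    have hn' : φ τ ^ n = φ ⟨σ, hσ⟩ := congrArg Subtype.val hn
    refine ⟨n, ψ ((τ ^ n)⁻¹ * ⟨σ, hσ⟩), ⟨_, ?_, rfl⟩, ?_⟩
    · show φ _ = 1
      rw [map_mul, map_inv, map_pow, hn', inv_mul_cancel]
    · rw [map_mul, map_inv, map_pow]
      exact (mul_inv_cancel_left (f τ ^ n) (f σ)).symm

/-- Inertia has cyclic image in a finite group of order prime to the residue characteristic. -/
theorem isCyclic_inertia_map [Finite G] (hf : GaloisFactorsThroughFiniteLevel f) (hp : p.Prime)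
    (hA : A.LiesOverPrime p) (hpG : ¬ p ∣ Nat.card G) :
    IsCyclic ((A.inertiaSubgroupIn ℚ).map f) := by
  obtain ⟨P, hPH, hP, -, g, hg, hgen⟩ := exists_wild hf hp hA
  have : Fact p.Prime := ⟨hp⟩
  have hP1 : P = ⊥ := by
    obtain ⟨m, hm⟩ := IsPGroup.iff_card.mp hP
    have hd : Nat.card P ∣ Nat.card G := Subgroup.card_subgroup_dvd_card P
    rw [hm] at hd
    rcases Nat.eq_zero_or_pos m with rfl | hm0
    · exact Subgroup.card_eq_one.mp (by rw [hm, pow_zero])
    · exact absurd ((dvd_pow_self p hm0.ne').trans hd) hpG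
  have e : (A.inertiaSubgroupIn ℚ).map f = Subgroup.zpowers g := by
    refine le_antisymm (fun h hh => ?_) (Subgroup.zpowers_le.mpr hg)
    obtain ⟨n, x, hx, rfl⟩ := hgen h hh
    rw [hP1, Subgroup.mem_bot] at hx
    rw [hx, mul_one]
    exact pow_mem (Subgroup.mem_zpowers g) n
  rw [e]
  exact Subgroup.isCyclic_zpowers g

end Tame

section Three

local notation "G₃" => GL (Fin 2) (ZMod 3)
local notation "M₃" => Matrix (Fin 2) (Fin 2) (ZMod 3)

theorem zmod3_unit_cases : ∀ u : ZMod 3, u ≠ 0 → u = 1 ∨ u = -1 := by decide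

theorem zmod3_cube : ∀ u : ZMod 3, u ^ 3 = 1 → u = 1 := by decide

theorem zmod3_one_ne : (1 : ZMod 3) ≠ -1 := by decide

theorem zmod3_sums : ((-1 : ZMod 3) - 0 + 1 = 0) ∧ ((1 : ZMod 3) - (2 : ℕ) + 1 = 0) := by decide

theorem det_neg_one_entries : ∀ a b c d : ZMod 3, a * d - b * c = -1 →
    ((a + d = 0 → a * a + b * c = 1 ∧ a * b + b * d = 0 ∧ c * a + d * c = 0 ∧ c * b + d * d = 1) ∧
      (a + d ≠ 0 → (!![a, b; c, d] : M₃) * !![a, b; c, d] * (!![a, b; c, d] * !![a, b; c, d]) =
        -1)) := by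
  decide +kernel

theorem normalizer_entries : ∀ x y z : ZMod 3, (x ≠ 0 ∨ y ≠ 0 ∨ z ≠ 0) → x * -x - y * z = 0 →
    ∀ a b c d : ZMod 3, a * d - b * c = -1 →
    ((a * x + b * z = x * a + y * c ∧ a * y + b * -x = x * b + y * d ∧
        c * x + d * z = z * a + -x * c ∧ c * y + d * -x = z * b + -x * d) ∨
      (a * x + b * z = -(x * a + y * c) ∧ a * y + b * -x = -(x * b + y * d) ∧
        c * x + d * z = -(z * a + -x * c) ∧ c * y + d * -x = -(z * b + -x * d))) →
    a + d = 0 ∧ a * x + b * z + (c * y + d * -x) = 0 := by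
  decide +kernel

/-- A matrix of determinant `-1` normalising a nonzero nilpotent has trace zero, as has its product
with the nilpotent. -/
theorem trace_eq_zero_of_normalizes {g N : M₃} (hg : g.det = -1) (hN : N ≠ 0) (ht : N.trace = 0)
    (hd : N.det = 0) (h : g * N = N * g ∨ g * N = -(N * g)) :
    g.trace = 0 ∧ (g * N).trace = 0 := by
  have h11 : N 1 1 = -N 0 0 := by
    rw [trace_fin_two] at ht
    linear_combination ht
  have hN' : N 0 0 ≠ 0 ∨ N 0 1 ≠ 0 ∨ N 1 0 ≠ 0 := by
    by_contra hc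
    push Not at hc
    refine hN (Matrix.ext fun i j => ?_)
    fin_cases i <;> fin_cases j <;> simp [hc.1, hc.2.1, hc.2.2, h11]
  rw [det_fin_two, h11] at hd
  rw [det_fin_two] at hg
  have := normalizer_entries _ _ _ hN' hd _ _ _ _ hg (by
    rcases h with h | h <;> [left; right] <;>
      refine ⟨?_, ?_, ?_, ?_⟩
    all_goals
      first
      | simpa [Matrix.mul_apply, Fin.sum_univ_two, h11] using congrFun (congrFun h 0) 0
      | simpa [Matrix.mul_apply, Fin.sum_univ_two, h11] using congrFun (congrFun h 0) 1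
      | simpa [Matrix.mul_apply, Fin.sum_univ_two, h11] using congrFun (congrFun h 1) 0
      | simpa [Matrix.mul_apply, Fin.sum_univ_two, h11] using congrFun (congrFun h 1) 1)
  simp only [trace_fin_two, Matrix.mul_apply, Fin.sum_univ_two, h11]
  exact this

theorem det_sub_one (M : M₃) : (M - 1).det = M.det - M.trace + 1 := by
  simp only [det_fin_two, trace_fin_two, Matrix.sub_apply, one_apply_eq,
    one_apply_ne (show (0 : Fin 2) ≠ 1 by decide), one_apply_ne (show (1 : Fin 2) ≠ 0 by decide)]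
  ring

theorem val_sq_eq_one {g : G₃} (hg : g.1.det = -1) (ht : g.1.trace = 0) : g * g = 1 := by
  rw [det_fin_two] at hg
  rw [trace_fin_two] at ht
  obtain ⟨h1, h2, h3, h4⟩ := (det_neg_one_entries _ _ _ _ hg).1 ht
  refine Units.ext (Matrix.ext fun i j => ?_)
  fin_cases i <;> fin_cases j <;> simp [Matrix.mul_apply, Fin.sum_univ_two, h1, h2, h3, h4]

theorem orderOf_eq_eight {g : G₃} (hg : g.1.det = -1) (ht : g.1.trace ≠ 0) : orderOf g = 8 := by
  have : Fact (Nat.Prime 2) := ⟨Nat.prime_two⟩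
  rw [det_fin_two] at hg
  rw [trace_fin_two] at ht
  have h4 : g.1 ^ 4 = -1 := by
    have h := (det_neg_one_entries _ _ _ _ hg).2 ht
    rw [← eta_fin_two g.1] at h
    rw [show 4 = 2 + 2 from rfl, pow_add, pow_two, h]
  refine orderOf_eq_prime_pow (p := 2) (n := 2) (fun h => ?_) (Units.ext ?_)
  · have := congrArg Units.val h
    rw [Units.val_pow_eq_pow_val, show 2 ^ 2 = 4 from rfl, h4] at this
    exact absurd this (by decide +kernel)
  · rw [Units.val_pow_eq_pow_val, show 2 ^ (2 + 1) = 4 + 4 from rfl, pow_add, h4, neg_one_mul,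
      neg_neg]
    rfl

theorem zmod3_three : (3 : M₃) = 0 := by decide +kernel

variable {ρ : GQ →* G₃}

/-- Some inertia element at `3` has determinant `-1`. -/
theorem exists_inertia_det_neg_one
    (hdet : ∀ σ, Matrix.GeneralLinearGroup.det (ρ σ) = WeierstrassCurve.modThreeCyclotomicChar σ)
    {A : ValuationSubring QB} (hA : A.LiesOverPrime 3) :
    ∃ σ ∈ A.inertiaSubgroupIn ℚ, (ρ σ).1.det = -1 := by
  refine LocalThree.exists_inertia_det (R := (Units.coeHom M₃).comp ρ) hA fun σ ζ hζ => ?_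
  show σ ζ = ζ ^ (ρ σ).1.det.val
  rw [← GeneralLinearGroup.val_det_apply, hdet]
  have : NeZero (3 : ℕ) := ⟨by norm_num⟩
  exact (modularCyclotomicCharacter.spec (AlgebraicClosure ℚ)
    (IsAlgClosed.card_rootsOfUnity_eq (AlgebraicClosure ℚ) 3) (σ : QB ≃+* QB)
    (rootsOfUnity.mkOfPowEq ζ hζ).2)

/-- At `3` a mod `3` representation with cyclotomic determinant has a line or is supersingular. -/
theorem lineShape_or_supersingular (ρ : GQ →* G₃) (hfac : GaloisFactorsThroughFiniteLevel ρ)
    (hdet : ∀ σ, Matrix.GeneralLinearGroup.det (ρ σ) = WeierstrassCurve.modThreeCyclotomicChar σ) :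
    ∀ A : ValuationSubring QB, A.LiesOverPrime 3 → LineShape ρ A ∨ SupersingularShape ρ A := by
  intro A hA
  have : Fact (Nat.Prime 3) := ⟨Nat.prime_three⟩
  obtain ⟨P, hPH, hP, hnorm, g, hg, hgen⟩ := exists_wild hfac Nat.prime_three hA
  obtain ⟨m, hm⟩ := IsPGroup.iff_card.mp hP
  have hd : Nat.card P ∣ 48 := natCard_GL_three ▸ Subgroup.card_subgroup_dvd_card P
  have hm1 : m ≤ 1 := by
    by_contra h
    rw [hm] at hd
    have := (pow_dvd_pow 3 (show 2 ≤ m by omega)).trans hd
    norm_num at this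
  -- elements of `P` are unipotent
  have hcube : ∀ x ∈ P, x ^ 3 = 1 := fun x hx => by
    have h := pow_card_eq_one' (x := (⟨x, hx⟩ : P))
    rw [hm] at h
    have h' : x ^ 3 ^ m = 1 := congrArg Subtype.val h
    interval_cases m
    · rw [pow_zero, pow_one] at h'
      rw [h', one_pow]
    · exact h'
  have hdetP : ∀ x ∈ P, x.1.det = 1 := fun x hx => by
    have h := congrArg Matrix.det (congrArg Units.val (hcube x hx))
    rw [Units.val_pow_eq_pow_val, det_pow, Units.val_one, det_one] at h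
    exact zmod3_cube _ h
  have hdetg : g.1.det = -1 := by
    obtain ⟨σ, hσ, hσd⟩ := exists_inertia_det_neg_one hdet hA
    obtain ⟨n, x, hx, e⟩ := hgen (ρ σ) ⟨σ, hσ, rfl⟩
    refine (zmod3_unit_cases _ (g.isUnit.map Matrix.detMonoidHom).ne_zero).resolve_left fun h1 => ?_
    have h1' : g.1.det = 1 := h1
    rw [e, Units.val_mul, Units.val_pow_eq_pow_val, det_mul, det_pow, h1', one_pow, one_mul,
      hdetP x hx] at hσd
    exact zmod3_one_ne hσd
  by_cases hP1 : P = ⊥
  · by_cases ht : g.1.trace = 0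
    · refine Or.inl fun σ hσ => ?_
      obtain ⟨n, x, hx, e⟩ := hgen (ρ σ) ⟨σ, hσ, rfl⟩
      rw [hP1, Subgroup.mem_bot] at hx
      rw [e, hx, mul_one, det_sub_one]
      have hg2 : g ^ 2 = 1 := (pow_two g).trans (val_sq_eq_one hdetg ht)
      obtain ⟨j, rfl | rfl⟩ := Nat.even_or_odd' n
      · rw [pow_mul, hg2, one_pow, Units.val_one, det_one, trace_one, Fintype.card_fin]
        exact zmod3_sums.2
      · rw [pow_add, pow_mul, hg2, one_pow, one_mul, pow_one, hdetg, ht]
        exact zmod3_sums.1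
    · have e : (A.inertiaSubgroupIn ℚ).map ρ = Subgroup.zpowers g := by
        refine le_antisymm (fun h hh => ?_) (Subgroup.zpowers_le.mpr hg)
        obtain ⟨n, x, hx, rfl⟩ := hgen h hh
        rw [hP1, Subgroup.mem_bot] at hx
        rw [hx, mul_one]
        exact pow_mem (Subgroup.mem_zpowers g) n
      right
      rw [SupersingularShape, e]
      exact ⟨Subgroup.isCyclic_zpowers g, by rw [Nat.card_zpowers, orderOf_eq_eight hdetg ht]⟩
  · left
    have hcard : Nat.card P = 3 := by
      interval_cases m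
      · exact absurd (Subgroup.card_eq_one.mp (by rw [hm, pow_zero])) hP1
      · rw [hm, pow_one]
    obtain ⟨u, huP, hu1⟩ := (Subgroup.ne_bot_iff_exists_ne_one.mp hP1) |> fun ⟨⟨u, hu⟩, h⟩ =>
      (⟨u, hu, fun e => h (Subtype.ext e)⟩ : ∃ u ∈ P, u ≠ 1)
    set N : M₃ := u.1 - 1 with hNdef
    have hu : ∀ x ∈ P, x = 1 ∨ x = u ∨ x = u ^ 2 := by
      intro x hx
      have hP' : P = Subgroup.zpowers u := by
        refine (Subgroup.eq_of_le_of_card_ge (Subgroup.zpowers_le.mpr huP) ?_).symm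
        rw [hcard, Nat.card_zpowers, orderOf_eq_prime (hcube u huP) hu1]
      rw [hP'] at hx
      obtain ⟨j, hj, rfl⟩ := (mem_zpowers_iff_mem_range_orderOf.trans Finset.mem_image).mp hx
      rw [Finset.mem_range, orderOf_eq_prime (hcube u huP) hu1] at hj
      interval_cases j
      · exact Or.inl (pow_zero u)
      · exact Or.inr (Or.inl (pow_one u))
      · exact Or.inr (Or.inr rfl)
    have hdN : N.det = 0 ∧ N.trace = 0 := by
      have h3 := congrArg Units.val (hcube u huP)
      rw [Units.val_pow_eq_pow_val, Units.val_one] at h3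
      have hN3 : N ^ 3 = 0 := by
        have e : N ^ 3 = u.1 ^ 3 - 1 + (3 : M₃) * (u.1 - u.1 ^ 2) := by
          rw [hNdef]; noncomm_ring
        rw [e, h3, sub_self, zmod3_three, zero_mul, add_zero]
      have hdet0 : N.det = 0 := by
        have h := congrArg Matrix.det hN3
        rw [det_pow, det_zero] at h
        exact pow_eq_zero_iff (by norm_num) |>.mp h
      refine ⟨hdet0, ?_⟩
      have h1 := det_sub_one u.1
      rw [← hNdef, hdet0, hdetP u huP] at h1
      rw [hNdef, trace_sub, trace_one, Fintype.card_fin]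
      linear_combination h1
    have hN0 : N ≠ 0 := fun h => hu1 (Units.ext (sub_eq_zero.mp h))
    have hN2 : N * N = 0 := by
      have key : ∀ M : M₃, M.det = 0 → M.trace = 0 → M * M = 0 := fun M hd ht => by
        rw [det_fin_two] at hd
        rw [trace_fin_two] at ht
        ext i j
        fin_cases i <;> fin_cases j <;> simp [Matrix.mul_apply, Fin.sum_univ_two]
        · linear_combination M 0 0 * ht - hd
        · linear_combination M 0 1 * ht
        · linear_combination M 1 0 * ht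
        · linear_combination M 1 1 * ht - hd
      exact key N hdN.1 hdN.2
    have huN : u.1 = 1 + N := by rw [hNdef]; abel
    have hu2 : (u ^ 2).1 = 1 - N := by
      rw [Units.val_pow_eq_pow_val, huN, pow_two,
        show (1 + N) * (1 + N) = 1 - N + N * N + (3 : M₃) * N by noncomm_ring, hN2, zmod3_three]
      simp
    have hconj : g.1 * N = N * g.1 ∨ g.1 * N = -(N * g.1) := by
      have hc := hnorm g hg u huP
      have e : g.1 * u.1 = (g * u * g⁻¹).1 * g.1 := by
        rw [← Units.val_mul, ← Units.val_mul, inv_mul_cancel_right]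
      rcases hu _ hc with h | h | h
      · exact absurd (conj_eq_one_iff.mp h) hu1
      · left
        rw [h, huN, mul_add, add_mul, mul_one, one_mul] at e
        exact add_left_cancel e
      · right
        rw [h, hu2, huN, mul_add, sub_mul, mul_one, one_mul, sub_eq_add_neg] at e
        exact add_left_cancel e
    obtain ⟨ht, htN⟩ := trace_eq_zero_of_normalizes hdetg hN0 hdN.2 hdN.1 hconj
    have hg2 : g ^ 2 = 1 := (pow_two g).trans (val_sq_eq_one hdetg ht)
    have hline : ∀ x ∈ P, (x.1 - 1).det = 0 ∧ ((g * x).1 - 1).det = 0 := by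
      intro x hx
      rw [det_sub_one, det_sub_one, hdetP x hx, Units.val_mul, det_mul, hdetg, hdetP x hx]
      have hx' : x.1.trace = 2 ∧ (g.1 * x.1).trace = 0 := by
        have h2 : (1 : M₃).trace = 2 := by simp [trace_one]
        rcases hu x hx with h | h | h <;> rw [h]
        · rw [Units.val_one, mul_one, h2, ht]
          exact ⟨rfl, rfl⟩
        · rw [huN, mul_add, mul_one, trace_add, trace_add, h2, hdN.2, ht, htN]
          exact ⟨add_zero _, add_zero _⟩
        · rw [hu2, mul_sub, mul_one, trace_sub 1 N, trace_sub g.1 (g.1 * N), h2, hdN.2, ht, htN]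
          exact ⟨sub_zero _, sub_zero _⟩
      rw [hx'.1, hx'.2, mul_one]
      exact ⟨by simpa using zmod3_sums.2, zmod3_sums.1⟩
    intro σ hσ
    obtain ⟨n, x, hx, e⟩ := hgen (ρ σ) ⟨σ, hσ, rfl⟩
    rw [e]
    obtain ⟨j, rfl | rfl⟩ := Nat.even_or_odd' n
    · rw [pow_mul, hg2, one_pow, one_mul]
      exact (hline x hx).1
    · rw [pow_add, pow_mul, hg2, one_pow, one_mul, pow_one]
      exact (hline x hx).2

end Three

end FLTAgent.LanglandsTunnell.General
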