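import Fermat.Agent.WeightOneWiring.Identify
import Fermat.Prelude.Def_GaloisRep_Residual

/-!
# Uniqueness of the trace of the octahedral lift

Every section of reduction `GL₂(ℤ[√-2]) → GL₂(𝔽₃)` has the trace of the explicit lift, and a
continuous representation into a finite discrete group factors through a finite level.
Main results: `trace_section`, `factors_of_continuous`.
-/

set_option autoImplicit false

noncomputable section

open Matrix FLT.ExplicitLift
open scoped MatrixGroups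

namespace FLTAgent.LanglandsTunnell.General

open FLTAgent.WeightOneWiring (liftTrace liftTr det_val_ne_zero)

local notation "M₃" => Matrix (Fin 2) (Fin 2) (ZMod 3)
local notation "G₃" => GL (Fin 2) (ZMod 3)
local notation "R₂" => ℤ√(-2)
local notation "MR" => Matrix (Fin 2) (Fin 2) (ℤ√(-2))

/-- The conjugacy types in `GL₂(𝔽₃)`, with the trace of the lift. -/
theorem entries_types : ∀ a b c d : ZMod 3, a * d - b * c ≠ 0 →
    ((!![a, b; c, d] : M₃) = 1 ∧ liftTr a b c d = 2) ∨
    ((!![a, b; c, d] : M₃) = -1 ∧ liftTr a b c d = -2) ∨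
    ((b ≠ 0 ∨ c ≠ 0 ∨ a ≠ d) ∧
      (((!![a, b; c, d] : M₃) * !![a, b; c, d] = 1 ∧ a * d - b * c = -1 ∧ liftTr a b c d = 0) ∨
      ((!![a, b; c, d] : M₃) * !![a, b; c, d] = -1 ∧ a * d - b * c = 1 ∧ liftTr a b c d = 0) ∨
      ((!![a, b; c, d] : M₃) * !![a, b; c, d] * !![a, b; c, d] = 1 ∧ a * d - b * c = 1 ∧
        a + d = 2 ∧ liftTr a b c d = -1) ∨
      ((!![a, b; c, d] : M₃) * !![a, b; c, d] * !![a, b; c, d] = -1 ∧ a * d - b * c = 1 ∧
        a + d = 1 ∧ liftTr a b c d = 1) ∨
      ((!![a, b; c, d] : M₃) * !![a, b; c, d] * (!![a, b; c, d] * !![a, b; c, d]) = -1 ∧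
        a * d - b * c = -1 ∧ a + d ≠ 0 ∧
        liftTr a b c d = if a + d = 1 then (⟨0, -1⟩ : ℤ√(-2)) else ⟨0, 1⟩))) := by
  decide +kernel

/-- The trace of the lift is odd. -/
theorem liftTr_neg : ∀ a b c d : ZMod 3, a * d - b * c ≠ 0 →
    liftTr (-a) (-b) (-c) (-d) = -liftTr a b c d := by
  decide +kernel

theorem liftTrace_neg (g : G₃) : liftTrace (-g) = -liftTrace g :=
  liftTr_neg _ _ _ _ (det_val_ne_zero g)

theorem sq_eq_trace_smul (M : MR) : M * M = M.trace • M - M.det • (1 : MR) := by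
  ext i j <;> fin_cases i <;> fin_cases j <;>
    simp [Matrix.mul_apply, Fin.sum_univ_two, trace_fin_two, det_fin_two] <;> ring

theorem red_trace_map {g : G₃} {h : GL (Fin 2) R₂} (hh : GeneralLinearGroup.map red h = g) :
    red h.1.trace = g.1.trace := by
  rw [← hh]; exact AddMonoidHom.map_trace red.toAddMonoidHom _

theorem red_det_map {g : G₃} {h : GL (Fin 2) R₂} (hh : GeneralLinearGroup.map red h = g) :
    red h.1.det = g.1.det := by
  rw [← hh]; exact RingHom.map_det red _

/-- The units of `ℤ[√-2]`. -/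
theorem eq_one_or_neg_one_of_isUnit {z : R₂} (hz : IsUnit z) : z = 1 ∨ z = -1 := by
  have h := Zsqrtd.norm_eq_one_iff.mpr hz
  rw [Zsqrtd.norm_def] at h
  have hre := mul_self_nonneg z.re
  have him := mul_self_nonneg z.im
  have e : z.re * z.re + 2 * (z.im * z.im) = 1 := by
    have : (z.re * z.re - -2 * z.im * z.im).natAbs = 1 := h
    rw [show z.re * z.re - -2 * z.im * z.im = z.re * z.re + 2 * (z.im * z.im) by ring] at this
    omega
  have hi : z.im = 0 := mul_self_eq_zero.mp (by omega)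
  have hr : z.re = 1 ∨ z.re = -1 := mul_self_eq_one_iff.mp (by rw [hi] at e; linarith)
  rcases hr with hr | hr
  · exact Or.inl (Zsqrtd.ext hr hi)
  · exact Or.inr (Zsqrtd.ext (by simpa using hr) (by simpa using hi))

theorem zero_of_mul_eq_zero {z w : R₂} (h : z * w = 0) (hz : z ≠ 0) : w = 0 := by
  have e : z.norm * w.norm = 0 := by rw [← Zsqrtd.norm_mul, h, Zsqrtd.norm_zero]
  have key : ∀ u : R₂, u.norm = 0 → u = 0 := fun u hu =>
    (Zsqrtd.norm_eq_zero_iff (by norm_num) u).mp hu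
  exact key w ((mul_eq_zero.mp e).resolve_left fun h' => hz (key z h'))

/-- A lift of a nonscalar element satisfies no linear relation with `1`. -/
theorem coeff_eq_zero {g : G₃} {h : GL (Fin 2) R₂} (hh : GeneralLinearGroup.map red h = g)
    (hns : g.1 0 1 ≠ 0 ∨ g.1 1 0 ≠ 0 ∨ g.1 0 0 ≠ g.1 1 1) {α β : R₂}
    (e : α • h.1 + β • (1 : MR) = 0) : α = 0 ∧ β = 0 := by
  have e00 := congrFun (congrFun e 0) 0
  have e01 := congrFun (congrFun e 0) 1
  have e10 := congrFun (congrFun e 1) 0
  have e11 := congrFun (congrFun e 1) 1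
  simp at e00 e01 e10 e11
  by_cases hα : α = 0
  · exact ⟨hα, by simpa [hα] using e00⟩
  exfalso
  have hred : ∀ i j, g.1 i j = red (h.1 i j) := fun i j => by rw [← hh]; rfl
  have f01 : h.1 0 1 = 0 := zero_of_mul_eq_zero e01 hα
  have f10 : h.1 1 0 = 0 := zero_of_mul_eq_zero e10 hα
  have fd : h.1 0 0 = h.1 1 1 :=
    sub_eq_zero.mp (zero_of_mul_eq_zero (by linear_combination e00 - e11) hα)
  rcases hns with h' | h' | h' <;> apply h'
  · rw [hred, f01, map_zero]
  · rw [hred, f10, map_zero]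
  · rw [hred, hred, fd]

theorem det_of_red {g : G₃} {h : GL (Fin 2) R₂} (hh : GeneralLinearGroup.map red h = g) :
    (g.1.det = 1 → h.1.det = 1) ∧ (g.1.det = -1 → h.1.det = -1) := by
  have e := red_det_map hh
  rcases eq_one_or_neg_one_of_isUnit
    ((Matrix.isUnit_iff_isUnit_det _).mp h.isUnit) with h1 | h1 <;> rw [h1] at e ⊢ <;>
    simp at e ⊢ <;> rw [← e] <;> decide

variable (Ψ : G₃ →* GL (Fin 2) R₂) (hΨ : ∀ g, GeneralLinearGroup.map red (Ψ g) = g)
include hΨ

theorem section_neg_one : (Ψ (-1)).1 = -1 := by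
  have hd : (Ψ (-1)).1.det = 1 := (det_of_red (hΨ (-1))).1 (by decide +kernel)
  have hsq : (Ψ (-1)).1 * (Ψ (-1)).1 = 1 := by
    rw [← Units.val_mul, ← map_mul, neg_one_mul, neg_neg, map_one, Units.val_one]
  have e := sq_eq_trace_smul (Ψ (-1)).1
  rw [hsq, hd, one_smul] at e
  have e00 := congrFun (congrFun e 0) 0
  have e01 := congrFun (congrFun e 0) 1
  have e10 := congrFun (congrFun e 1) 0
  have e11 := congrFun (congrFun e 1) 1
  simp at e00 e01 e10 e11
  set t := (Ψ (-1)).1.trace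
  have ht : t ≠ 0 := fun h0 => by rw [h0, zero_mul] at e00; norm_num at e00
  have f01 := zero_of_mul_eq_zero e01.symm ht
  have f10 := zero_of_mul_eq_zero e10.symm ht
  have fd : (Ψ (-1)).1 0 0 = (Ψ (-1)).1 1 1 :=
    sub_eq_zero.mp (zero_of_mul_eq_zero (by linear_combination e11 - e00) ht)
  have hc : (Ψ (-1)).1 0 0 * (Ψ (-1)).1 0 0 = 1 := by
    have := congrFun (congrFun hsq 0) 0
    simpa [Matrix.mul_apply, Fin.sum_univ_two, f01] using this
  have hred : red ((Ψ (-1)).1 0 0) = -1 := by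
    have := congrArg (fun u : G₃ => u.1 0 0) (hΨ (-1))
    simpa using this
  have hval : (Ψ (-1)).1 0 0 = -1 := by
    refine (eq_one_or_neg_one_of_isUnit (IsUnit.of_mul_eq_one _ hc)).resolve_left fun h1 => ?_
    rw [h1, map_one] at hred
    exact absurd hred (by decide)
  ext i j <;> fin_cases i <;> fin_cases j <;> simp [hval, ← fd, f01, f10]

/-- Every section of reduction has the trace of the explicit lift. -/
theorem trace_section (g : G₃) : (Ψ g).1.trace = liftTrace g := by
  rcases entries_types _ _ _ _ (det_val_ne_zero g) with ⟨h1, ht⟩ | ⟨h1, ht⟩ | ⟨hns, h⟩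
  · rw [← eta_fin_two g.1] at h1
    rw [liftTrace, ht, show g = 1 from Units.ext h1, map_one]; simp
  · rw [← eta_fin_two g.1] at h1
    have : g = -1 := Units.ext h1
    rw [liftTrace, ht, this, section_neg_one Ψ hΨ]; simp
  rw [← eta_fin_two g.1, ← det_fin_two, ← trace_fin_two] at h
  set t := (Ψ g).1.trace with htdef
  have hsq := sq_eq_trace_smul (Ψ g).1
  rw [← htdef] at hsq
  have hd := det_of_red (hΨ g)
  have hred := red_trace_map (hΨ g)
  rw [← htdef] at hred
  rw [liftTrace]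
  rcases h with ⟨e, hdet, ht⟩ | ⟨e, hdet, ht⟩ | ⟨e, hdet, htr, ht⟩ | ⟨e, hdet, htr, ht⟩ |
    ⟨e, hdet, htr, ht⟩ <;> rw [ht]
  · have e' : (Ψ g).1 * (Ψ g).1 = 1 := by
      rw [← Units.val_mul, ← map_mul, show g * g = 1 from Units.ext e, map_one, Units.val_one]
    rw [hd.2 hdet, e'] at hsq
    exact (coeff_eq_zero (hΨ g) hns (α := t) (β := 0)
      (by linear_combination (norm := module) -hsq)).1
  · have e' : (Ψ g).1 * (Ψ g).1 = -1 := by
      rw [← Units.val_mul, ← map_mul, show g * g = -1 from Units.ext e, section_neg_one Ψ hΨ]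
    rw [hd.1 hdet, e'] at hsq
    exact (coeff_eq_zero (hΨ g) hns (α := t) (β := 0)
      (by linear_combination (norm := module) -hsq)).1
  · have e' : (Ψ g).1 * (Ψ g).1 * (Ψ g).1 = 1 := by
      rw [← Units.val_mul, ← map_mul, ← Units.val_mul, ← map_mul,
        show g * g * g = 1 from Units.ext e, map_one, Units.val_one]
    rw [hd.1 hdet, one_smul] at hsq
    rw [hsq, sub_mul, smul_mul_assoc, hsq, one_mul, smul_sub, smul_smul] at e'
    obtain ⟨-, hb⟩ := coeff_eq_zero (hΨ g) hns (α := t * t - 1) (β := -t - 1)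
      (by linear_combination (norm := module) e')
    linear_combination -hb
  · have e' : (Ψ g).1 * (Ψ g).1 * (Ψ g).1 = -1 := by
      rw [← Units.val_mul, ← map_mul, ← Units.val_mul, ← map_mul,
        show g * g * g = -1 from Units.ext e, section_neg_one Ψ hΨ]
    rw [hd.1 hdet, one_smul] at hsq
    rw [hsq, sub_mul, smul_mul_assoc, hsq, one_mul, smul_sub, smul_smul] at e'
    obtain ⟨-, hb⟩ := coeff_eq_zero (hΨ g) hns (α := t * t - 1) (β := -t + 1)
      (by linear_combination (norm := module) e')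
    linear_combination -hb
  · have e' : (Ψ g).1 * (Ψ g).1 * ((Ψ g).1 * (Ψ g).1) = -1 := by
      rw [← Units.val_mul, ← map_mul, ← Units.val_mul, ← map_mul,
        show g * g * (g * g) = -1 from Units.ext e, section_neg_one Ψ hΨ]
    rw [hd.2 hdet, neg_smul, one_smul, sub_neg_eq_add] at hsq
    rw [hsq, add_mul, mul_add, mul_one, one_mul, smul_mul_smul_comm, hsq] at e'
    obtain ⟨ha, hb⟩ := coeff_eq_zero (hΨ g) hns (α := t * t * t + 2 * t) (β := t * t + 2)
      (by linear_combination (norm := module) e')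
    have ht2 : t = ⟨0, 1⟩ ∨ t = ⟨0, -1⟩ := by
      have hp : (t - ⟨0, 1⟩) * (t + ⟨0, 1⟩) = 0 := by
        have h2 : (⟨0, 1⟩ : R₂) * ⟨0, 1⟩ = -2 := by decide
        linear_combination hb - h2
      by_cases h' : t - ⟨0, 1⟩ = 0
      · exact Or.inl (sub_eq_zero.mp h')
      · exact Or.inr (by rw [eq_neg_of_add_eq_zero_left (zero_of_mul_eq_zero hp h')]; decide)
    have r1 : red (⟨0, 1⟩ : R₂) = 2 := by decide +kernel
    have r2 : red (⟨0, -1⟩ : R₂) = 1 := by decide +kernel
    rcases ht2 with h' | h' <;> rw [h'] at hred ⊢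
    · rw [r1] at hred
      rw [if_neg (by rw [← hred]; decide)]
    · rw [r2] at hred
      rw [if_pos hred.symm]

omit hΨ in
/-- A continuous representation into a discrete group factors through a finite level. -/
theorem factors_of_continuous
    (ρ : (AlgebraicClosure ℚ ≃ₐ[ℚ] AlgebraicClosure ℚ) →* G₃) (hρ : Continuous ρ) :
    GaloisFactorsThroughFiniteLevel ρ := by
  have h : ρ ⁻¹' {1} ∈ nhds (1 : AlgebraicClosure ℚ ≃ₐ[ℚ] AlgebraicClosure ℚ) :=
    (hρ.isOpen_preimage _ (isOpen_discrete _)).mem_nhds (by simp)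
  obtain ⟨L, hL, hsub⟩ := (krullTopology_mem_nhds_one_iff ℚ (AlgebraicClosure ℚ) _).mp h
  exact ⟨L, hL, fun σ hσ => hsub ((IntermediateField.mem_fixingSubgroup_iff _ _).mpr hσ)⟩

end FLTAgent.LanglandsTunnell.General

end
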