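import Fermat.Agent.LanglandsTunnell.Datum
import Fermat.Agent.LanglandsTunnell.CFT.AuxPrimes
import Fermat.Agent.LanglandsTunnell.CFT.CrossingTools
import Fermat.Agent.LanglandsTunnell.CFT.Crossing
import Fermat.Agent.Density.Inertia
import Fermat.Agent.LanglandsTunnell.General.InertiaImage

/-!
# A quadratic twist removing `-1` from the inertia at the odd primes away from three

Twisting by the Legendre characters of the primes with inertia image of order two or six leaves
inertia images of order one or three there; the other primes keep order one, three or four.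
-/

set_option autoImplicit false

noncomputable section

open scoped Pointwise

namespace FLTAgent.LanglandsTunnell.General

open FLTAgent.LanglandsTunnell Matrix
open ExtCitation (cycloChar)

local notation "G₃" => GL (Fin 2) (ZMod 3)

/-- The scalar matrix of a sign. -/
def signScalar : ℤˣ →* G₃ :=
  Units.map (Int.castRingHom (Matrix (Fin 2) (Fin 2) (ZMod 3))).toMonoidHom

theorem signScalar_neg_one : signScalar (-1) = -1 :=
  Units.ext (by simp [signScalar])

theorem signScalar_mul_comm (e : ℤˣ) (g : G₃) : signScalar e * g = g * signScalar e := by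
  rcases Int.units_eq_one_or e with rfl | rfl
  · simp
  · simp [signScalar_neg_one]

theorem det_signScalar (e : ℤˣ) : GeneralLinearGroup.det (signScalar e) = 1 := by
  rcases Int.units_eq_one_or e with rfl | rfl
  · simp
  · exact Units.ext (by simp [signScalar_neg_one, det_neg])

theorem exists_anticommute : ∃ a b : G₃, a * b * a⁻¹ * b⁻¹ = -1 := by
  refine ⟨GeneralLinearGroup.mkOfDetNeZero !![0, -1; 1, 0] (by decide),
    GeneralLinearGroup.mkOfDetNeZero !![1, 1; 1, -1] (by decide), ?_⟩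
  rw [mul_inv_eq_iff_eq_mul, mul_inv_eq_iff_eq_mul]
  refine Units.ext ?_
  simp only [Units.val_mul, Units.val_neg, Units.val_one]
  decide

theorem sl_cases : ∀ a b c d : ZMod 3, a * d - b * c = 1 → a + d ≠ 0 →
    ((!![a, b; c, d] - 1) * (!![a, b; c, d] - 1) = 0 ∨
      (!![a, b; c, d] + 1) * (!![a, b; c, d] + 1) = 0) := by
  decide +kernel

theorem sl_cases' {g : G₃} (hd : g.1.det = 1) (ht : g.1.trace ≠ 0) :
    (g.1 - 1) * (g.1 - 1) = 0 ∨ ((-g).1 - 1) * ((-g).1 - 1) = 0 := by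
  rw [det_fin_two] at hd
  rw [trace_fin_two] at ht
  have h := sl_cases _ _ _ _ hd ht
  rw [← eta_fin_two g.1] at h
  refine h.imp_right fun h => ?_
  rw [Units.val_neg, show -g.1 - 1 = -(g.1 + 1) by abel, neg_mul_neg]
  exact h

theorem pow_sub_one_sq {R : Type*} [Ring R] {u : R} (h : (u - 1) * (u - 1) = 0) (n : ℕ) :
    (u ^ n - 1) * (u ^ n - 1) = 0 := by
  rw [← geom_sum_mul, mul_assoc, ← mul_assoc (u - 1), ((Commute.sum_left _ _ _ fun i _ =>
    ((Commute.refl u).pow_left i).sub_right (Commute.one_right _)).eq).symm, mul_assoc, h,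
    mul_zero, mul_zero]

theorem cube_cases : ∀ a b c d : ZMod 3,
    (!![a, b; c, d] - 1) * (!![a, b; c, d] - 1) = 0 →
      !![a, b; c, d] * (!![a, b; c, d] * !![a, b; c, d]) = 1 := by
  decide +kernel

theorem cube_of_unipotent {g : Matrix (Fin 2) (Fin 2) (ZMod 3)} (h : (g - 1) * (g - 1) = 0) :
    g ^ 3 = 1 := by
  rw [pow_succ', sq, eta_fin_two g]
  rw [eta_fin_two g] at h
  exact cube_cases _ _ _ _ h

theorem modThreeCyclotomicChar_eq_one {q : ℕ} (hq : q.Prime) (h3 : q ≠ 3)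
    {A : ValuationSubring QB} (hA : A.LiesOverPrime q) {σ : GQ}
    (hσ : σ ∈ A.inertiaSubgroupIn ℚ) : WeierstrassCurve.modThreeCyclotomicChar σ = 1 := by
  have : Fact (Nat.Prime 3) := ⟨Nat.prime_three⟩
  exact LanglandsTunnell.CFT.cycloChar_eq_one_of_mem_inertia hq h3 hA hσ

theorem neg_one_not_unipotent : ((-1 : G₃).1 - 1) * ((-1 : G₃).1 - 1) ≠ 0 := by
  rw [Units.val_neg, Units.val_one]
  decide

/-- Legendre's symbol as a character of units. -/
def legendreUnit (q : ℕ) [Fact q.Prime] : (ZMod q)ˣ →* ℤˣ :=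
  (quadraticChar (ZMod q)).toUnitHom

/-- For finitely many odd primes there is a quadratic character, with its Dirichlet character, cut
out by them and nontrivial on inertia at each of them. -/
theorem exists_quadChar (S : Finset ℕ) (hS : ∀ q ∈ S, q.Prime ∧ q ≠ 2) :
    ∃ (c : ℕ) (_ : NeZero c) (χ : DirichletCharacter ℂ c) (η : GQ →* ℤˣ),
      χ * χ = 1 ∧ GaloisFactorsThroughFiniteLevel η ∧
      (∀ q : ℕ, q.Prime → q ∉ S → ∀ A : ValuationSubring QB, A.LiesOverPrime q →
        ∀ σ ∈ A.inertiaSubgroupIn ℚ, η σ = 1) ∧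
      (∀ q ∈ S, ∀ A : ValuationSubring QB, A.LiesOverPrime q →
        ∃ σ ∈ A.inertiaSubgroupIn ℚ, η σ = -1) ∧
      ∀ p : ℕ, p.Prime → ¬ p ∣ c → ∀ A : ValuationSubring QB, A.LiesOverPrime p →
        ∀ σ : GQ, A.IsFrobeniusAt σ p → χ (p : ZMod c) = ((η σ : ℤ) : ℂ) := by
  classical
  induction S using Finset.induction_on with
  | empty =>
    refine ⟨1, inferInstance, 1, 1, one_mul 1, ⟨⊥, inferInstance, fun _ _ => rfl⟩,
      fun _ _ _ _ _ _ _ => rfl, fun q hq => absurd hq (Finset.notMem_empty q), ?_⟩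
    intro p _ _ A _ σ _
    rw [MulChar.one_apply (isUnit_of_subsingleton _)]
    simp
  | insert q T hqT ih =>
    obtain ⟨c, hc0, χ, η, hχ, ⟨L, hL, hLη⟩, hout, hin, hfrob⟩ :=
      ih fun r hr => hS r (Finset.mem_insert_of_mem hr)
    obtain ⟨hq, hq2⟩ := hS q (Finset.mem_insert_self q T)
    have : Fact q.Prime := ⟨hq⟩
    obtain ⟨L', hL', hLq⟩ := LanglandsTunnell.CFT.exists_level_cycloChar q
    let θ : GQ →* ℤˣ := (legendreUnit q).comp (cycloChar q)
    let χq : DirichletCharacter ℂ q := (quadraticChar (ZMod q)).ringHomComp (Int.castRingHom ℂ)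
    have hχq : χq * χq = 1 := by
      have h := ((quadraticChar_isQuadratic (ZMod q)).comp (Int.castRingHom ℂ)).sq_eq_one
      rwa [sq] at h
    have : NeZero (c * q) := ⟨mul_ne_zero hc0.out hq.ne_zero⟩
    have := hL
    have := hL'
    refine ⟨c * q, inferInstance,
      DirichletCharacter.changeLevel (dvd_mul_right c q) χ *
        DirichletCharacter.changeLevel (dvd_mul_left q c) χq, η * θ, ?_,
      ⟨L ⊔ L', inferInstance, fun σ hσ => ?_⟩, fun r hr hrS A hA σ hσ => ?_,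
      fun r hrS A hA => ?_, fun p hp hpc A hA σ hσ => ?_⟩
    · rw [mul_mul_mul_comm, ← map_mul, ← map_mul, hχ, hχq, map_one, map_one, one_mul]
    · rw [MonoidHom.mul_apply, hLη σ fun x hx => hσ x (le_sup_left (a := L) hx), one_mul]
      show legendreUnit q (cycloChar q σ) = 1
      rw [hLq σ fun x hx => hσ x (le_sup_right (a := L) hx), map_one]
    · rw [Finset.mem_insert, not_or] at hrS
      rw [MonoidHom.mul_apply, hout r hr hrS.2 A hA σ hσ, one_mul]
      show legendreUnit q (cycloChar q σ) = 1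
      rw [LanglandsTunnell.CFT.cycloChar_eq_one_of_mem_inertia hr hrS.1 hA hσ, map_one]
    · rcases Finset.mem_insert.mp hrS with rfl | hrT
      · have hkey : ∃ (B : ValuationSubring QB) (τ : GQ), B.LiesOverPrime r ∧
            τ ∈ B.inertiaSubgroupIn ℚ ∧ θ τ = -1 := by
          by_contra hcon
          push Not at hcon
          obtain ⟨a, ha⟩ := quadraticChar_exists_neg_one'
            (F := ZMod r) (by rw [ZMod.ringChar_zmod_n]; exact hq2)
          have h := (Subgroup.closure_le (legendreUnit r).ker).mpr ?_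
            (LanglandsTunnell.CFT.cycloChar_surjective_inertia r a)
          · rw [MonoidHom.mem_ker, Units.ext_iff] at h
            simp [legendreUnit, ha] at h
          · rintro v ⟨B, τ, hB, hτ, rfl⟩
            exact (Int.units_eq_one_or _).resolve_right (hcon B τ hB hτ)
        obtain ⟨B, τ, hB, hτ, hθ⟩ := hkey
        obtain ⟨g, rfl⟩ := Density.exists_smul_eq_of_liesOverPrime hq hB hA
        refine ⟨g * τ * g⁻¹, Density.mem_inertiaSubgroupIn_smul hτ g, ?_⟩
        rw [MonoidHom.mul_apply, hout r hq hqT (g • B) hA _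
          (Density.mem_inertiaSubgroupIn_smul hτ g),
          one_mul, map_mul, map_mul, map_inv, hθ, mul_comm (θ g), mul_inv_cancel_right]
      · obtain ⟨σ, hσ, hη⟩ := hin r hrT A hA
        refine ⟨σ, hσ, ?_⟩
        rw [MonoidHom.mul_apply, hη]
        show -1 * legendreUnit q (cycloChar q σ) = -1
        rw [LanglandsTunnell.CFT.cycloChar_eq_one_of_mem_inertia (hS r hrS).1
          (by rintro rfl; exact hqT hrT) hA hσ, map_one, mul_one]
    · obtain ⟨u, hu⟩ : IsUnit (p : ZMod (c * q)) :=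
        (ZMod.isUnit_iff_coprime _ _).mpr (hp.coprime_iff_not_dvd.mpr hpc)
      rw [MulChar.mul_apply, ← hu, DirichletCharacter.changeLevel_eq_cast_of_dvd,
        DirichletCharacter.changeLevel_eq_cast_of_dvd, hu,
        ZMod.cast_natCast (dvd_mul_right c q), ZMod.cast_natCast (dvd_mul_left q c),
        hfrob p hp (fun h => hpc (h.trans (dvd_mul_right c q))) A hA σ hσ, MonoidHom.mul_apply,
        Units.val_mul, Int.cast_mul]
      congr 1
      have hnu : (q : QB) ∉ A.nonunits := Density.natCast_notMem_nonunits hp hA fun h =>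
        hpc (((Nat.prime_dvd_prime_iff_eq hp hq).mp h).symm ▸ dvd_mul_left q c)
      rw [MulChar.ringHomComp_apply,
        ← LanglandsTunnell.CFT.cycloChar_eq_natCast (r := q) hσ hnu]
      rfl

section Shapes

variable {ρ : GQ →* G₃} {η : GQ →* ℤˣ} {A : ValuationSubring QB}

/-- The inertia shape after twisting by a sign. -/
theorem twisted_unipotent
    (hcyc : IsCyclic ((A.inertiaSubgroupIn ℚ).map (ρ.prod η)))
    (hdet : ∀ σ ∈ A.inertiaSubgroupIn ℚ, (ρ σ).1.det = 1)
    (htr : ∀ σ ∈ A.inertiaSubgroupIn ℚ, (ρ σ).1.trace ≠ 0)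
    (h : (∃ σ ∈ A.inertiaSubgroupIn ℚ, ρ σ = -1) ↔ ∃ σ ∈ A.inertiaSubgroupIn ℚ, η σ = -1) :
    ∀ σ ∈ A.inertiaSubgroupIn ℚ,
      ((signScalar (η σ) * ρ σ).1 - 1) * ((signScalar (η σ) * ρ σ).1 - 1) = 0 := by
  have := hcyc
  obtain ⟨⟨_, τ, hτ, rfl⟩, hgen⟩ :=
    IsCyclic.exists_monoid_generator (α := (A.inertiaSubgroupIn ℚ).map (ρ.prod η))
  have hpow : ∀ σ ∈ A.inertiaSubgroupIn ℚ, ∃ n : ℕ, ρ σ = ρ τ ^ n ∧ η σ = η τ ^ n := fun σ hσ => by
    obtain ⟨n, hn⟩ := Submonoid.mem_powers_iff _ _ |>.mp (hgen ⟨_, σ, hσ, rfl⟩)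
    have h1 : (ρ τ, η τ) ^ n = (ρ σ, η σ) := congrArg Subtype.val hn
    exact ⟨n, (congrArg Prod.fst h1).symm, (congrArg Prod.snd h1).symm⟩
  have key : ((signScalar (η τ) * ρ τ).1 - 1) * ((signScalar (η τ) * ρ τ).1 - 1) = 0 := by
    rcases Int.units_eq_one_or (η τ) with he | he
    · rw [he, map_one, one_mul]
      refine (sl_cases' (hdet τ hτ) (htr τ hτ)).resolve_right fun h' => ?_
      have h3 : ρ (τ ^ 3) = -1 := by
        rw [map_pow]
        refine Units.ext ?_
        have e := cube_of_unipotent h'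
        rw [Units.val_neg] at e
        rw [Units.val_pow_eq_pow_val, Units.val_neg, Units.val_one, ← e, neg_pow, ← neg_one_mul,
          ← mul_assoc, ← pow_succ', show (-1 : Matrix (Fin 2) (Fin 2) (ZMod 3)) ^ (3 + 1) = 1 by
            simp [pow_succ], one_mul]
      obtain ⟨σ, hσ, hη⟩ := h.mp ⟨τ ^ 3, pow_mem hτ 3, h3⟩
      obtain ⟨n, -, hn⟩ := hpow σ hσ
      rw [hη, he, one_pow] at hn
      exact absurd hn (by decide)
    · rw [he, signScalar_neg_one, neg_one_mul]
      refine (sl_cases' (hdet τ hτ) (htr τ hτ)).resolve_left fun h' => ?_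
      obtain ⟨σ, hσ, hρ⟩ := h.mpr ⟨τ, hτ, he⟩
      obtain ⟨n, hn, -⟩ := hpow σ hσ
      refine neg_one_not_unipotent ?_
      rw [← hρ, hn, Units.val_pow_eq_pow_val]
      exact pow_sub_one_sq h' n
  intro σ hσ
  obtain ⟨n, hn, hn'⟩ := hpow σ hσ
  rw [hn, hn', map_pow, ← Commute.mul_pow (signScalar_mul_comm _ _), Units.val_pow_eq_pow_val]
  exact pow_sub_one_sq key n

end Shapes

/-- A quadratic twist with unipotent or cyclic order four inertia at the odd primes away from
three. -/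
theorem exists_quadTwist
    (ρ : GQ →* G₃) (hfac : GaloisFactorsThroughFiniteLevel ρ) (hsurj : Function.Surjective ρ)
    (hdet : ∀ σ : GQ, GeneralLinearGroup.det (ρ σ) = WeierstrassCurve.modThreeCyclotomicChar σ) :
    ∃ (c : ℕ) (_ : NeZero c) (χ : DirichletCharacter ℂ c) (ρ' : GQ →* G₃),
      χ * χ = 1 ∧ GaloisFactorsThroughFiniteLevel ρ' ∧ Function.Surjective ρ' ∧
      (∀ σ : GQ, GeneralLinearGroup.det (ρ' σ) = WeierstrassCurve.modThreeCyclotomicChar σ) ∧
      (∀ q : ℕ, q.Prime → q ≠ 2 → q ≠ 3 → ∀ A : ValuationSubring QB, A.LiesOverPrime q →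
        (∀ σ ∈ A.inertiaSubgroupIn ℚ, ((ρ' σ).1 - 1) * ((ρ' σ).1 - 1) = 0) ∨
          (IsCyclic ((A.inertiaSubgroupIn ℚ).map ρ') ∧
            ∃ σ ∈ A.inertiaSubgroupIn ℚ, (ρ' σ).1.trace = 0)) ∧
      ∀ p : ℕ, p.Prime → ¬ p ∣ 3 * c → ∀ A : ValuationSubring QB, A.LiesOverPrime p →
        ∀ σ : GQ, A.IsFrobeniusAt σ p →
          (χ (p : ZMod c) = 1 ∧ ρ' σ = ρ σ) ∨ (χ (p : ZMod c) = -1 ∧ ρ' σ = -ρ σ) := by
  classical
  obtain ⟨L, hL, hLρ⟩ := hfac
  have := hL
  obtain ⟨S₀, hS₀⟩ := Density.exists_finset_forall_inertia_fixes L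
  let P : ℕ → Prop := fun q => q.Prime ∧ q ≠ 2 ∧ q ≠ 3 ∧
    ∃ A : ValuationSubring QB, A.LiesOverPrime q ∧ (∀ σ ∈ A.inertiaSubgroupIn ℚ,
      (ρ σ).1.trace ≠ 0) ∧ ∃ σ ∈ A.inertiaSubgroupIn ℚ, ρ σ = -1
  have hP : ∀ {q : ℕ} {A : ValuationSubring QB}, P q → A.LiesOverPrime q →
      (∀ σ ∈ A.inertiaSubgroupIn ℚ, (ρ σ).1.trace ≠ 0) ∧
        ∃ σ ∈ A.inertiaSubgroupIn ℚ, ρ σ = -1 := by
    rintro q A ⟨hq, -, -, B, hB, htr, σ₀, hσ₀, h₀⟩ hA
    obtain ⟨g, rfl⟩ := Density.exists_smul_eq_of_liesOverPrime hq hB hA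
    refine ⟨fun σ hσ h => ?_, g * σ₀ * g⁻¹, Density.mem_inertiaSubgroupIn_smul hσ₀ g, ?_⟩
    · have hmem := Density.mem_inertiaSubgroupIn_smul hσ g⁻¹
      rw [inv_smul_smul, inv_inv] at hmem
      refine htr _ hmem ?_
      rwa [map_mul, map_mul, map_inv, Units.val_mul, Units.val_mul, trace_mul_cycle,
        ← Units.val_mul, mul_inv_cancel, Units.val_one, one_mul]
    · rw [map_mul, map_mul, map_inv, h₀]
      simp
  let S := S₀.filter P
  have hS : ∀ q, q ∈ S ↔ P q := by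
    intro q
    refine ⟨fun h => (Finset.mem_filter.mp h).2, fun h => Finset.mem_filter.mpr ⟨?_, h⟩⟩
    obtain ⟨hq, -, -, A, hA, -, σ, hσ, h₀⟩ := h
    by_contra hn
    rw [hLρ σ (hS₀ q hq hn A hA σ hσ)] at h₀
    exact absurd h₀.symm (by decide)
  obtain ⟨c, hc, χ, η, hχ, hη, hout, hin, hfrob⟩ :=
    exists_quadChar S fun q hq => ⟨((hS q).mp hq).1, ((hS q).mp hq).2.1⟩
  obtain ⟨L', hL', hL'η⟩ := hη
  have := hL'
  let ρ' : GQ →* G₃ :=
    { toFun := fun σ => signScalar (η σ) * ρ σ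
      map_one' := by simp
      map_mul' := fun σ τ => by
        rw [map_mul, map_mul, map_mul, mul_assoc, mul_assoc, ← mul_assoc (signScalar (η τ)),
          signScalar_mul_comm (η τ), mul_assoc] }
  have hρ' : ∀ σ, ρ' σ = signScalar (η σ) * ρ σ := fun _ => rfl
  have hfac' : GaloisFactorsThroughFiniteLevel ρ' := ⟨L ⊔ L', inferInstance, fun σ hσ => by
    rw [hρ', hLρ σ fun x hx => hσ x (le_sup_left (a := L) hx),
      hL'η σ fun x hx => hσ x (le_sup_right (a := L) hx), map_one, one_mul]⟩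
  have hfac'' : GaloisFactorsThroughFiniteLevel (ρ.prod η) :=
    ⟨L ⊔ L', inferInstance, fun σ hσ => Prod.ext (hLρ σ fun x hx => hσ x (le_sup_left (a := L) hx))
      (hL'η σ fun x hx => hσ x (le_sup_right (a := L) hx))⟩
  have hdet' : ∀ σ : GQ,
      GeneralLinearGroup.det (ρ' σ) = WeierstrassCurve.modThreeCyclotomicChar σ := fun σ => by
    rw [hρ', map_mul, det_signScalar, one_mul, hdet]
  have hneg : (-1 : G₃) ∈ ρ'.range := by
    obtain ⟨a, b, hab⟩ := exists_anticommute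
    obtain ⟨σ, rfl⟩ := hsurj a
    obtain ⟨τ, rfl⟩ := hsurj b
    refine ⟨σ * τ * σ⁻¹ * τ⁻¹, ?_⟩
    have he : η (σ * τ * σ⁻¹ * τ⁻¹) = 1 := by
      rw [map_mul, map_mul, map_mul, map_inv, map_inv, mul_comm (η σ) (η τ), mul_inv_cancel_right,
        mul_inv_cancel]
    rw [hρ', he, map_one, one_mul, map_mul, map_mul, map_mul, map_inv, map_inv, hab]
  have hsurj' : Function.Surjective ρ' := fun g => by
    obtain ⟨σ, rfl⟩ := hsurj g
    rcases Int.units_eq_one_or (η σ) with he | he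
    · exact ⟨σ, by rw [hρ', he, map_one, one_mul]⟩
    · obtain ⟨τ, hτ⟩ := hneg
      exact ⟨τ * σ, by rw [map_mul, hτ, hρ', he, signScalar_neg_one]; simp⟩
  refine ⟨c, hc, χ, ρ', hχ, hfac', hsurj', hdet', fun q hq h2 h3 A hA => ?_,
    fun p hp hpc A hA σ hσ => ?_⟩
  · have hcard : ∀ (n : ℕ), n ∣ 96 → ¬ q ∣ n := fun n hn hd => by
      have h96 : q ∣ 2 ^ 5 * 3 := hd.trans hn
      rcases (Nat.Prime.dvd_mul hq).mp h96 with h | h
      · exact h2 ((Nat.prime_dvd_prime_iff_eq hq Nat.prime_two).mp (hq.dvd_of_dvd_pow h))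
      · exact h3 ((Nat.prime_dvd_prime_iff_eq hq Nat.prime_three).mp h)
    have hd1 : ∀ σ ∈ A.inertiaSubgroupIn ℚ, (ρ σ).1.det = 1 := fun σ hσ => by
      have e := hdet σ
      rw [modThreeCyclotomicChar_eq_one hq h3 hA hσ, Units.ext_iff] at e
      simpa [GeneralLinearGroup.val_det_apply] using e
    by_cases ht : ∃ σ ∈ A.inertiaSubgroupIn ℚ, (ρ σ).1.trace = 0
    · right
      refine ⟨isCyclic_inertia_map hfac' hq hA (hcard _ (by rw [natCard_GL_three]; norm_num)), ?_⟩
      obtain ⟨σ, hσ, h0⟩ := ht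
      refine ⟨σ, hσ, ?_⟩
      rcases Int.units_eq_one_or (η σ) with he | he <;>
        simp [hρ', he, signScalar_neg_one, h0]
    · push Not at ht
      left
      have hiff : (∃ σ ∈ A.inertiaSubgroupIn ℚ, ρ σ = -1) ↔
          ∃ σ ∈ A.inertiaSubgroupIn ℚ, η σ = -1 := by
        by_cases hqS : q ∈ S
        · exact iff_of_true (hP ((hS q).mp hqS) hA).2 (hin q hqS A hA)
        · refine iff_of_false (fun h => hqS ((hS q).mpr ⟨hq, h2, h3, A, hA, ht, h⟩)) ?_
          rintro ⟨σ, hσ, h⟩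
          rw [hout q hq hqS A hA σ hσ] at h
          exact absurd h (by decide)
      exact twisted_unipotent (isCyclic_inertia_map hfac'' hq hA (hcard _ (by
        rw [Nat.card_prod, natCard_GL_three, Nat.card_eq_fintype_card, Fintype.card_units_int])))
        hd1 ht hiff
  · have h := hfrob p hp (fun h => hpc (h.trans (dvd_mul_left c 3))) A hA σ hσ
    rcases Int.units_eq_one_or (η σ) with he | he
    · exact .inl ⟨by rw [h, he]; simp, by rw [hρ', he, map_one, one_mul]⟩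
    · exact .inr ⟨by rw [h, he]; simp, by rw [hρ', he, signScalar_neg_one, neg_one_mul]⟩

end FLTAgent.LanglandsTunnell.General
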