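import Fermat.Agent.WeightOneWiring.FullSystem
import Fermat.Agent.LanglandsTunnell.Assembly
import Fermat.Agent.LanglandsTunnell.General.FormTwist
import Fermat.Agent.LanglandsTunnell.General.InertiaImage
import Fermat.Agent.LanglandsTunnell.General.LiftUnique
import Fermat.Agent.LanglandsTunnell.General.Twist

/-!
# The weight one system of a surjective mod `3` representation

Weight one modularity of the octahedral lift of any surjective `ρ : G_ℚ → GL₂(𝔽₃)` with
cyclotomic determinant: twist, descend, twist back.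
Main result: `exists_weightOneSystem`.
-/

set_option autoImplicit false

noncomputable section

open CongruenceSubgroup EisensteinWeightOne FLT.ExplicitLift WeierstrassCurve
open scoped MatrixGroups

namespace FLTAgent.LanglandsTunnell.General

open FLTAgent.LanglandsTunnell FLTAgent.WeightOneWiring FLTAgent.MFIntegral

theorem quad_sq {c : ℕ} {χ : DirichletCharacter ℂ c} (hχ : χ * χ = 1) (n : ℕ) :
    χ (n : ZMod c) = 0 ∨ χ (n : ZMod c) * χ (n : ZMod c) = 1 := by
  by_cases h : IsUnit (n : ZMod c)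
  · exact Or.inr (by rw [← MulChar.mul_apply, hχ, MulChar.one_apply h])
  · exact Or.inl (MulChar.map_nonunit χ h)

/-- A quadratic character as a function with values in `ℤ[√-2]`. -/
theorem exists_values {c : ℕ} {χ : DirichletCharacter ℂ c} (hχ : χ * χ = 1) :
    ∃ w : ℕ → ℤ√(-2), ∀ (ι : ℤ√(-2) →+* ℂ) (n : ℕ), ι (w n) = χ (n : ZMod c) := by
  classical
  refine ⟨fun n => if χ (n : ZMod c) = 0 then 0 else if χ (n : ZMod c) = 1 then 1 else -1,
    fun ι n => ?_⟩
  dsimp only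
  split_ifs with h0 h1
  · rw [map_zero, h0]
  · rw [map_one, h1]
  · rw [map_neg, map_one]
    exact ((mul_self_eq_one_iff.mp ((quad_sq hχ n).resolve_left h0)).resolve_left h1).symm

/-- The weight one system of an arbitrary `ρ`. -/
theorem exists_weightOneSystem (ρ : GQ →* GL (Fin 2) (ZMod 3)) (hρ : Continuous ρ)
    (hsurj : Function.Surjective ρ)
    (hdet : ∀ σ : GQ, Matrix.GeneralLinearGroup.det (ρ σ) = modThreeCyclotomicChar σ)
    (Ψ : GL (Fin 2) (ZMod 3) →* GL (Fin 2) (ℤ√(-2)))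
    (hΨ : ∀ g, Matrix.GeneralLinearGroup.map red (Ψ g) = g) :
    ∃ (N : ℕ) (_ : NeZero N) (b : ℕ → ℤ√(-2)),
      FormalHecke.IsEigensystem
        (fun ℓ => if ℓ ∣ N then 0 else ((chiNegThree ℓ : ℤ) : ℤ√(-2))) b ∧
      CuspForm.IsWeightOneChiNegThreeRealized N b ∧
      ∀ p : ℕ, p.Prime → ¬ p ∣ 3 * N →
        ∀ A : ValuationSubring QB, A.LiesOverPrime p →
          ∀ σ : GQ, A.IsFrobeniusAt σ p →
            b p = ((Ψ (ρ σ) : GL (Fin 2) (ℤ√(-2))) : Matrix (Fin 2) (Fin 2) (ℤ√(-2))).trace := by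
  classical
  obtain ⟨c, hc, χ, ρ', hχ, hfac, hsurj', hdet', hinert, hfrob⟩ :=
    exists_quadTwist ρ (factors_of_continuous ρ hρ) hsurj hdet
  have := hc
  let D : Datum := ⟨ρ', hfac, hsurj', hdet', hinert, lineShape_or_supersingular ρ' hfac hdet'⟩
  obtain ⟨M, hM, ι, b, g, hsys, -, htr⟩ :=
    exists_system deligneSerreInput D (exists_weightOneForm D)
  have hg : ChiForm M ⇑g := ⟨hsys.three_dvd, isCF_of_cuspForm g, hsys.nebentypus⟩
  obtain ⟨L, f, hL, hML, -, hpr, hf, hcoef⟩ := exists_twistedForm (NeZero.ne M) χ hχ hg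
  have : NeZero L := ⟨hL⟩
  obtain ⟨w, hw⟩ := exists_values hχ
  refine ⟨L, ⟨hL⟩, fun n => w n * b n, ⟨?_, fun ℓ hℓ n => ?_⟩,
    ⟨ι, hf.isCF.toCF, fun n => ?_⟩, fun p hp hpL A hA σ hσ => ?_⟩
  · refine iota_injective ι ?_
    rw [map_mul, map_one, hw, hsys.eigensystem.1, map_one, Nat.cast_one, map_one, mul_one]
  · refine iota_injective ι ?_
    have he := congrArg ι (hsys.eigensystem.2 ℓ hℓ n)
    simp only [map_add, map_mul] at he ⊢
    rw [hw, hw, hw, Nat.cast_mul, map_mul]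
    rcases quad_sq hχ ℓ with h0 | h1
    · have hℓc : ℓ ∣ c := by
        by_contra hd
        exact (Ne.symm zero_ne_one) (by
          rw [← MulChar.one_apply (R' := ℂ) ((ZMod.isUnit_prime_iff_not_dvd hℓ).mpr hd), ← hχ,
            MulChar.mul_apply, h0, mul_zero])
      rw [if_pos ((hpr ℓ hℓ).mpr (Or.inr hℓc)), h0]
      simp
    · have hℓL : ℓ ∣ L ↔ ℓ ∣ M := by
        refine (hpr ℓ hℓ).trans (or_iff_left fun hd => ?_)
        rw [MulChar.map_nonunit χ (fun hu => (ZMod.isUnit_prime_iff_not_dvd hℓ).mp hu hd),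
          mul_zero] at h1
        exact zero_ne_one h1
      simp only [weightOneEuler, ← hℓL] at he
      by_cases hd : ℓ ∣ n
      · obtain ⟨m, rfl⟩ := hd
        rw [if_pos (dvd_mul_right ℓ m), Nat.mul_div_cancel_left _ hℓ.pos] at he ⊢
        rw [map_mul, hw]
        rw [Nat.cast_mul, map_mul] at *
        linear_combination (χ (ℓ : ZMod c) * (χ (ℓ : ZMod c) * χ (m : ZMod c))) * he -
          (ι (if ℓ ∣ L then 0 else ((chiNegThree ℓ : ℤ) : ℤ√(-2))) *
            χ (m : ZMod c) * ι (b m)) * h1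
      · rw [if_neg hd, map_zero, mul_zero, add_zero] at he ⊢
        linear_combination (χ (ℓ : ZMod c) * χ (n : ZMod c)) * he
  · rw [IsCF.coe_toCF, hcoef, hsys.qCoeff, map_mul, hw]
  · obtain ⟨hp3, hpL'⟩ : p ≠ 3 ∧ ¬ p ∣ L :=
      ⟨fun h => hpL (h ▸ dvd_mul_right 3 L), fun h => hpL (h.mul_left 3)⟩
    have hpc : ¬ p ∣ 3 * c := fun h => (hp.dvd_mul.mp h).elim
      (fun h => hp3 ((Nat.prime_dvd_prime_iff_eq hp Nat.prime_three).mp h))
      fun h => hpL' ((hpr p hp).mpr (Or.inr h))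
    have hpM : ¬ p ∣ M := fun h => hpL' ((hpr p hp).mpr (Or.inl h))
    show w p * b p = _
    rw [trace_section Ψ hΨ (ρ σ), htr p hp hpM hp3 A hA σ hσ]
    refine iota_injective ι ?_
    rw [map_mul, hw]
    rcases hfrob p hp hpc A hA σ hσ with ⟨h1, h2⟩ | ⟨h1, h2⟩
    · rw [h1, one_mul, show D.ρ σ = ρ σ from h2]
    · rw [h1, show D.ρ σ = -ρ σ from h2, liftTrace_neg, map_neg, neg_one_mul, neg_neg]

end FLTAgent.LanglandsTunnell.General

end
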